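import Mathlib
import Fermat.Agent.LT.T7.H140.SpecDownQSpec

/-!
# Row LT, tower T7, node T7.L2Q.3 `SpecDownQC`: leaf SDQ.8 = `RealQC` (registry row 2291)

OFF-MAIN (helper587).  Spec: `LT/T7/H140/SpecDownQSpec.lean` of helper140
(sha256 7aa829b756fe1896), byte-identical copy.

    realQC587 (n) : SDQ140.RealQC n        (VERBATIM, both types)

`w0`: the function itself is a form as in `A0.IsSph0CuspFormFor ⟨𝔫, _, c.a, c.b⟩` (`ℚ` has no
complex place; the constant of `A0.MeanValueReal` is `2π · sphR0 0 (cosh t)`: `SphValuesC`).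
`w1`: `RealWtOneC` (weight one from `arch_compact` and `L2Q.wtOne_rotC`; the constant of
`T6.Inf.MeanValueWtOne` is `2π · sphR1 0 (cosh t)`: `SphValuesC`).
-/

set_option autoImplicit false

open AutomorphicForm IsDedekindDomain NumberField MeasureTheory
open scoped ComplexConjugate

noncomputable section

namespace Fermat.Agent.LT.T7.H587

open Fermat.Agent.LT.H556 Fermat.Agent.LT.H556.A0 Fermat.Agent.LT.H670 Fermat.Agent.LT.T7
open Fermat.Agent.LT.T7.L2Q Fermat.Agent.LT.T7.SDQ140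

/-- `rotC θ` is unitary. -/
theorem rotC_mul_conjTranspose587 (θ : ℝ) :
    QOut.rotC θ * (QOut.rotC θ).conjTranspose = 1 := by
  have h : Complex.cos (θ : ℂ) * Complex.cos (θ : ℂ)
      + Complex.sin (θ : ℂ) * Complex.sin (θ : ℂ) = 1 := by
    rw [← Complex.cos_sq_add_sin_sq (θ : ℂ)]
    ring
  have hc : (starRingEnd ℂ) (Complex.cos (θ : ℂ)) = Complex.cos (θ : ℂ) := by
    rw [← Complex.ofReal_cos, Complex.conj_ofReal]
  have hs : (starRingEnd ℂ) (Complex.sin (θ : ℂ)) = Complex.sin (θ : ℂ) := by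
    rw [← Complex.ofReal_sin, Complex.conj_ofReal]
  ext i j
  fin_cases i <;> fin_cases j <;>
    simp [QOut.rotC, Matrix.mul_apply, Matrix.conjTranspose_apply, Fin.sum_univ_two, hc, hs]
  · exact h
  · ring
  · ring
  · rw [add_comm]; exact h

/-- `det (rotC θ) = 1`. -/
theorem det_rotC587 (θ : ℝ) : (QOut.rotC θ).det = 1 := by
  have h : Complex.cos (θ : ℂ) * Complex.cos (θ : ℂ)
      + Complex.sin (θ : ℂ) * Complex.sin (θ : ℂ) = 1 := by
    rw [← Complex.cos_sq_add_sin_sq (θ : ℂ)]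
    ring
  simp [QOut.rotC, Matrix.det_fin_two]
  exact h

/-- An element which is local at `w` with component `rotC θ` lies in the maximal connected
compact subgroup at `w`. -/
theorem isArchCompact_of_rotC587 {w : InfinitePlace ℚ} {k : G ℚ} {θ : ℝ}
    (hloc : IsLocalAtInf w k) (h : infComp w k = QOut.rotC θ) : IsArchCompact w k :=
  ⟨hloc, by rw [h]; exact rotC_mul_conjTranspose587 θ, fun _ => by rw [h]; exact det_rotC587 θ⟩

/-- **LEAF SDQ.8 = REALISATION of the parameter `0`**, type `w0`. -/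
theorem realQC_w0_587 : RealQC QWt.w0 := by
  intro hVal _ 𝔫 r u ψ c h𝔫 hψ hne hm
  refine ⟨⟨𝔫, h𝔫, c.a, c.b⟩, rfl, rfl, Or.inl ⟨ψ, ?_⟩⟩
  have hcusp : T5.IsCuspFn 𝔫 T5.trivType r ψ := hψ.inv.cusp
  have hmean : ∀ w : InfinitePlace ℚ, MeanEigR0 ψ w (c.m w) := hψ.mean
  refine
    { cont := hcusp.cont
      bdd := hcusp.bdd
      ne_zero := hne
      left_inv := fun γ g => hcusp.aut.left_inv γ g
      level_inv := fun u hu g => hcusp.aut.level_inv u hu g
      arch_scalar := hψ.inv.arch_scalar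
      arch_compact := fun w k hk g => ?_
      mean_complex := fun w hw => ?_
      mean_real := fun w _ t ht Y hY g => ?_
      cuspidal := hcusp.cuspidal
      hecke := fun v hv => hψ.hecke v hv }
  · have h : ψ (g * k) = (1 : ℂ) * ψ g := hcusp.aut.arch_compact w k hk g
    rw [h, one_mul]
  · exfalso
    have hw' : w = Rat.infinitePlace := Subsingleton.elim _ _
    rw [hw'] at hw
    exact (InfinitePlace.not_isReal_iff_isComplex.mpr hw) Rat.isReal_infinitePlace
  · rw [hmean w t ht Y hY g, hm w t ht]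
    have h0 : T6.sphRad (QWt.w0).wt 0 (Real.cosh t) = T6.sphR0 0 (Real.cosh t) := by
      show (if (0 : ℤ) = 0 then T6.sphR0 0 (Real.cosh t) else T6.sphR1 0 (Real.cosh t))
        = T6.sphR0 0 (Real.cosh t)
      exact if_pos rfl
    rw [h0, hVal.2.1 t ht]

/-- **LEAF SDQ.8 = REALISATION of the parameter `0`**, type `w1`. -/
theorem realQC_w1_587 : RealQC QWt.w1 := by
  intro hVal hW1 𝔫 r u ψ c h𝔫 hψ hne hm
  have hcusp : T5.IsCuspFn 𝔫 wtOne r ψ := hψ.inv.cusp
  have hmean : ∀ w : InfinitePlace ℚ, MeanEigR1 ψ w (c.m w) := hψ.mean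
  refine hW1 ⟨𝔫, h𝔫, c.a, c.b⟩ ψ hcusp.cont hcusp.bdd hne
    (fun γ g => hcusp.aut.left_inv γ g) (fun u hu g => hcusp.aut.level_inv u hu g)
    hψ.inv.arch_scalar ?_ ?_ (fun v hv => hψ.hecke v hv)
  · intro w θ k hloc hk g
    rw [hcusp.aut.arch_compact w k (isArchCompact_of_rotC587 hloc hk) g]
    have hw' : w = Rat.infinitePlace := Subsingleton.elim _ _
    rw [hw'] at hk
    rw [wtOne_rotC hk]
  · intro w t ht Y hY g
    rw [hmean w t ht Y hY g, hm w t ht]
    have h1 : T6.sphRad (QWt.w1).wt 0 (Real.cosh t) = T6.sphR1 0 (Real.cosh t) := by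
      show (if (-1 : ℤ) = 0 then T6.sphR0 0 (Real.cosh t) else T6.sphR1 0 (Real.cosh t))
        = T6.sphR1 0 (Real.cosh t)
      exact if_neg (by decide)
    rw [h1, hVal.2.2 t ht]
    congr 1
    push_cast
    ring

/-- **LEAF SDQ.8 = REALISATION of the parameter `0`**, verbatim, both types. -/
theorem realQC587 (n : QWt) : RealQC n := by
  cases n with
  | w0 => exact realQC_w0_587
  | w1 => exact realQC_w1_587

end Fermat.Agent.LT.T7.H587

end
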