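import Fermat.Agent.LT.T7.H311.EkProdInv
import Fermat.Agent.LT.T7.H872.ConvTest
import Fermat.Agent.LT.T7.H732.SupplyQGeoSpec

/-!
# Row LT, tower T7, leaf T7.L2Q.1.F2op `EkProdDownOpQC732` VERBATIM (helper587, registry row 2467)

OFF-MAIN.  `ekProdDownOpQC587 F : T7.H732.EkProdDownOpQC732 F` (SupplyQGeoSpec of helper732),
UNCONDITIONAL: the members downstairs of type `n`, `F₁ n X ⋆ regL u z H k m (f₂ n)`, are products
of two Eisenstein-killing test functions OF TYPE `n.type` with Eisenstein-killing adjoints.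
Only the operator fields of the pre-data are used (`IsL2QPreOp732`).

Mirror of `H311.ekProdDownC311` (helper311, cyclic step, trivial type) with a general
`K_∞`-type `τ`:

* `IsPreT587 τ 𝔫 μ φ` : everything in `IsTestFn 𝔫 τ` and the two Eisenstein-killing clauses,
  except the left invariance under the level group; stable under left translates by elements
  which are trivial at infinity (they commute with the compact elements at infinity, so the
  type is preserved), finite sums, scalars, hence under the Iwahori sum `iwL` and its iterates.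
* the left invariance under `U(𝔫)`: `H311.IsLInv311` (type-free; helper311).
* the product is a test function of type `τ`: `H872.isTestFn_conv872` (helper872, general `τ`).
-/

set_option autoImplicit false
set_option linter.unusedSectionVars false
set_option linter.unusedVariables false

open IsDedekindDomain NumberField MeasureTheory IsDedekindDomain.HeightOneSpectrum
open scoped ComplexConjugate ContDiff
open Fermat.Agent.LT.H556 Fermat.Agent.LT.H556.A0 Fermat.Agent.LT.H129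

noncomputable section

namespace Fermat.Agent.LT.T7.H587

open Fermat.Agent.LT Fermat.Agent.LT.T7 Fermat.Agent.LT.T7.H893 Fermat.Agent.LT.T7.H340
  Fermat.Agent.LT.T7.H311

attribute [local instance] Fermat.Agent.LT.T5.instMeasurableSpaceG

variable {K : Type} [Field K] [NumberField K]

/-- Everything in `IsTestFn 𝔫 τ` and the two Eisenstein-killing clauses, except the left
invariance under the level group. -/
structure IsPreT587 (τ : G K → ℂ) (𝔫 : Ideal (𝓞 K)) (μ : Measure (G K)) (φ : G K → ℂ) :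
    Prop where
  cont : Continuous φ
  supp : HasCompactSupport φ
  smooth : T5.IsSmoothAtInf φ
  level_right : ∀ u : G K, InLevelGroup 𝔫 u → ∀ g : G K, φ (g * u) = φ g
  arch_right : ∀ (w : InfinitePlace K) (k : G K), IsArchCompact w k →
    ∀ g : G K, φ (g * k) = (τ k)⁻¹ * φ g
  arch_left : ∀ (w : InfinitePlace K) (k : G K), IsArchCompact w k →
    ∀ g : G K, φ (k * g) = (τ k)⁻¹ * φ g
  ek : T5.IsEK μ φ
  ek_adj : T5.IsEK μ (T5.adjointFn φ)

variable {τ : G K → ℂ} {𝔫 : Ideal (𝓞 K)} {μ : Measure (G K)} {F : Set (G K)}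

theorem isPreT_of_test587 {φ : G K → ℂ} (h : T5.IsTestFn 𝔫 τ φ)
    (e : T5.IsEK μ φ) (e' : T5.IsEK μ (T5.adjointFn φ)) : IsPreT587 τ 𝔫 μ φ where
  cont := h.cont
  supp := h.supp
  smooth := h.smooth
  level_right := h.inv.level_right
  arch_right := h.inv.arch_right
  arch_left := h.inv.arch_left
  ek := e
  ek_adj := e'

theorem IsPreT587.ltr (hF : T5.IsFrame μ F) {φ : G K → ℂ} (h : IsPreT587 τ 𝔫 μ φ) {b : G K}
    (hb : ∀ w : InfinitePlace K, TrivAtInf w b) : IsPreT587 τ 𝔫 μ (H893.ltr b φ) where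
  cont := h.cont.comp (continuous_const_mul b⁻¹)
  supp := h.supp.comp_homeomorph (Homeomorph.mulLeft b⁻¹)
  smooth := fun n fam h1 h2 g => by
    have h0 := h.smooth n fam h1 h2 (b⁻¹ * g)
    have e : (fun t => H893.ltr b φ (g * fam t)) = fun t => φ (b⁻¹ * g * fam t) := by
      funext t
      show φ (b⁻¹ * (g * fam t)) = φ (b⁻¹ * g * fam t)
      rw [mul_assoc]
    rw [e]
    exact h0
  level_right := fun u hu g => by
    show φ (b⁻¹ * (g * u)) = φ (b⁻¹ * g)
    rw [← mul_assoc]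
    exact h.level_right u hu _
  arch_right := fun w k hk g => by
    show φ (b⁻¹ * (g * k)) = (τ k)⁻¹ * φ (b⁻¹ * g)
    rw [← mul_assoc]
    exact h.arch_right w k hk _
  arch_left := fun w k hk g => by
    show φ (b⁻¹ * (k * g)) = (τ k)⁻¹ * φ (b⁻¹ * g)
    have hc : b⁻¹ * k = k * b⁻¹ := commute_fin_inf311 (trivAtInf_inv311 hb) hk.1.2
    rw [← mul_assoc, hc, mul_assoc]
    exact h.arch_left w k hk _
  ek := isEK_ltr311 hF.haar h.ek b
  ek_adj := isEK_adj_ltr311 hF h.ek_adj hb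

theorem IsPreT587.add (hF : T5.IsFrame μ F) {φ₁ φ₂ : G K → ℂ} (h₁ : IsPreT587 τ 𝔫 μ φ₁)
    (h₂ : IsPreT587 τ 𝔫 μ φ₂) : IsPreT587 τ 𝔫 μ (fun y => φ₁ y + φ₂ y) where
  cont := h₁.cont.add h₂.cont
  supp := h₁.supp.add h₂.supp
  smooth := fun n fam a1 a2 g => (h₁.smooth n fam a1 a2 g).add (h₂.smooth n fam a1 a2 g)
  level_right := fun u hu g => by
    show φ₁ (g * u) + φ₂ (g * u) = φ₁ g + φ₂ g
    rw [h₁.level_right u hu, h₂.level_right u hu]
  arch_right := fun w k hk g => by
    show φ₁ (g * k) + φ₂ (g * k) = (τ k)⁻¹ * (φ₁ g + φ₂ g)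
    rw [h₁.arch_right w k hk, h₂.arch_right w k hk, mul_add]
  arch_left := fun w k hk g => by
    show φ₁ (k * g) + φ₂ (k * g) = (τ k)⁻¹ * (φ₁ g + φ₂ g)
    rw [h₁.arch_left w k hk, h₂.arch_left w k hk, mul_add]
  ek := isEK_add311 hF.haar h₁.cont h₁.supp h₂.cont h₂.supp h₁.ek h₂.ek
  ek_adj := by
    rw [adjointFn_add311]
    exact isEK_add311 hF.haar (T5.H32.continuous_adjointFn32 h₁.cont)
      (T5.H32.hasCompactSupport_adjointFn32 h₁.supp) (T5.H32.continuous_adjointFn32 h₂.cont)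
      (T5.H32.hasCompactSupport_adjointFn32 h₂.supp) h₁.ek_adj h₂.ek_adj

theorem IsPreT587.smul (c : ℂ) {φ : G K → ℂ} (h : IsPreT587 τ 𝔫 μ φ) :
    IsPreT587 τ 𝔫 μ (fun y => c * φ y) where
  cont := continuous_const.mul h.cont
  supp := h.supp.mul_left
  smooth := fun n fam a1 a2 g => contDiff_const.mul (h.smooth n fam a1 a2 g)
  level_right := fun u hu g => by
    show c * φ (g * u) = c * φ g
    rw [h.level_right u hu]
  arch_right := fun w k hk g => by
    show c * φ (g * k) = (τ k)⁻¹ * (c * φ g)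
    rw [h.arch_right w k hk, mul_left_comm]
  arch_left := fun w k hk g => by
    show c * φ (k * g) = (τ k)⁻¹ * (c * φ g)
    rw [h.arch_left w k hk, mul_left_comm]
  ek := isEK_smul311 c h.ek
  ek_adj := by
    rw [adjointFn_smul311]
    exact isEK_smul311 _ h.ek_adj

theorem isPreT_zero587 : IsPreT587 τ 𝔫 μ (fun _ : G K => (0 : ℂ)) where
  cont := continuous_const
  supp := HasCompactSupport.zero
  smooth := fun n fam a1 a2 g => contDiff_const
  level_right := fun u hu g => rfl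
  arch_right := fun w k hk g => (mul_zero _).symm
  arch_left := fun w k hk g => (mul_zero _).symm
  ek := isEK_zero311
  ek_adj := (isPre_zero311 (𝔫 := 𝔫) (μ := μ)).ek_adj

theorem isPreT_sum587 (hF : T5.IsFrame μ F) {ι : Type} (s : Finset ι) (f : ι → G K → ℂ)
    (h : ∀ i ∈ s, IsPreT587 τ 𝔫 μ (f i)) : IsPreT587 τ 𝔫 μ (fun y => ∑ i ∈ s, f i y) := by
  classical
  induction s using Finset.induction_on with
  | empty =>
    have h0 : (fun y => ∑ i ∈ (∅ : Finset ι), f i y) = fun _ : G K => (0 : ℂ) := by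
      funext y
      exact Finset.sum_empty
    rw [h0]
    exact isPreT_zero587
  | insert a s ha ih =>
    have h1 : (fun y => ∑ i ∈ insert a s, f i y) = fun y => f a y + ∑ i ∈ s, f i y := by
      funext y
      rw [Finset.sum_insert ha]
    rw [h1]
    exact (h a (Finset.mem_insert_self a s)).add hF
      (ih fun i hi => h i (Finset.mem_insert_of_mem hi))

theorem IsPreT587.iwL (hF : T5.IsFrame μ F) {φ : G K → ℂ} (hφ : IsPreT587 τ 𝔫 μ φ)
    {w : HeightOneSpectrum (𝓞 K)} {H : Finset (G K)} (hH : IsIwCosetSystem w H) :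
    IsPreT587 τ 𝔫 μ (H893.iwL w H φ) := by
  have h1 : H893.iwL w H φ
      = fun y => ((Real.sqrt (Ideal.absNorm w.asIdeal : ℝ) : ℝ) : ℂ)⁻¹
          * ∑ h ∈ H, H893.ltr h φ y := rfl
  rw [h1]
  refine IsPreT587.smul _ (isPreT_sum587 hF H (fun h => H893.ltr h φ) fun h hh => ?_)
  exact hφ.ltr hF (hH.2.1 h hh).1.1

theorem IsPreT587.iterate (hF : T5.IsFrame μ F) {φ : G K → ℂ} (hφ : IsPreT587 τ 𝔫 μ φ)
    {w : HeightOneSpectrum (𝓞 K)} {H : Finset (G K)} (hH : IsIwCosetSystem w H) (m : ℕ) :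
    IsPreT587 τ 𝔫 μ ((H893.iwL w H)^[m] φ) := by
  induction m with
  | zero => exact hφ
  | succ n ih =>
    rw [Function.iterate_succ_apply']
    exact ih.iwL hF hH

/-- **The regular member is an Eisenstein-killing test function of type `τ`.** -/
theorem isEKTestT_regL587 (hτ : T5.IsKType τ) (hF : T5.IsFrame μ F) {φ : G K → ℂ}
    (hφ : IsPreT587 τ 𝔫 μ φ) {w : HeightOneSpectrum (𝓞 K)} (hL : IsLInv311 𝔫 w φ)
    (hw : w.asIdeal ∣ 𝔫) {H : Finset (G K)} (hH : IsIwCosetSystem w H) {z : G K}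
    (hz : IsScalarUniformizerAt w z) (k : ℤ) (m : ℕ) :
    T5.IsTestFn 𝔫 τ (H893.regL w z H k m φ) ∧ T5.IsEK μ (H893.regL w z H k m φ) ∧
      T5.IsEK μ (T5.adjointFn (H893.regL w z H k m φ)) := by
  have hzc : ∀ g : G K, z ^ k * g = g * z ^ k := fun g =>
    ((show Commute z g from central_scalar311 hz g).zpow_left k).eq
  have hzinf : ∀ u : InfinitePlace K, TrivAtInf u (z ^ k) :=
    trivAtInf_zpow311 hz.1.1 k
  have h1 : IsPreT587 τ 𝔫 μ (H893.regL w z H k m φ) := (hφ.iterate hF hH m).ltr hF hzinf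
  have h2 : IsLInv311 𝔫 w (H893.regL w z H k m φ) := (hL.iterate hw hH m).ltr_central hzc
  exact ⟨⟨hτ, h1.cont, h1.supp, h1.smooth, ⟨h1.level_right, h2.level, h1.arch_right,
    h1.arch_left⟩⟩, h1.ek, h1.ek_adj⟩

/-- **T7.L2Q.1.F2 EKPROD-DOWN over `ℚ` in operator form**, verbatim. -/
theorem ekProdDownOpQC587 (F : Type) [Field F] [NumberField F] :
    H732.EkProdDownOpQC732 F := by
  intro Φ B hB g hg E hE n X k m hX
  have hF : IsFrame5 B.R := hB.frame
  have h1 : T5.IsTestFn E.𝔫 n.type (E.F₁ n X) := hE.dn1_test n X hX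
  have h2 : T5.IsTestFn E.𝔫 n.type (E.f₂ n) := hE.dn2_test n
  have hpre : IsPreT587 n.type E.𝔫 B.R.μ (E.f₂ n) :=
    isPreT_of_test587 h2 (hE.dn2_ek n).1 (hE.dn2_ek n).2
  have hL : IsLInv311 E.𝔫 B.u (E.f₂ n) :=
    ⟨fun x hx y => ((hE.dn2_inv n).1 x hx y).1,
      fun h hl hI y => ((hE.dn2_inv n).2 h hl.1 (fun v hv => hl.2 v (hv 0 Nat.zero_lt_one))
        (fun _ _ => hI) y).1⟩
  obtain ⟨h2t, h2e, h2a⟩ :=
    isEKTestT_regL587 h2.ktype hF.frame hpre hL hE.u_level hE.sys hE.unif k m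
  exact ⟨H872.isTestFn_conv872 hF.frame.haar hE.level_ne h1 h2t, E.F₁ n X,
    H893.regL B.u E.z E.H k m (E.f₂ n), h1, h2t, (hE.dn1_ek n X hX).1, (hE.dn1_ek n X hX).2,
    h2e, h2a, rfl⟩

end Fermat.Agent.LT.T7.H587

end
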