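import Mathlib
import Fermat.Agent.LT.T7.H193.ProjSpec

/-!
# Row LT, tower T7, node T7.L2.1 `SupplyC`, sub-station PROJ: leaf PROJ.11 = `TorAvgOrthC`

OFF-MAIN (helper587, registry row 2148).  Spec: `LT/T7/H193/ProjSpec.lean` of helper193
(sha256 977a85e322a5d9c9), byte-identical copy.

    torAvgOrthC587 (K) : H193.TorAvgOrthC K        (VERBATIM, unconditional)

`ψ - P_∞ ψ` is orthogonal to the invariant cusp functions: Fubini on `F × D` (bounded continuous
integrand, finite measures), `χ (x a(t)) = χ x` (`a t` is the product over `w` of the positive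
scalars `a (Pi.single w (t w))` at `w`), and `TranslInvC` for `Φ = ψ conj χ`, `h = a t`.
-/

set_option autoImplicit false

open IsDedekindDomain NumberField MeasureTheory
open scoped ComplexConjugate

noncomputable section

namespace Fermat.Agent.LT.T7.H587

open Fermat.Agent.LT.H556 Fermat.Agent.LT.H556.A0 Fermat.Agent.LT
open Fermat.Agent.LT.T7 Fermat.Agent.LT.T7.H193

attribute [local instance] Fermat.Agent.LT.T5.instMeasurableSpaceG

variable {K : Type} [Field K] [NumberField K]

/-- A homomorphism `a` from an additive group sends `0` to `1`. -/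
theorem a_zero587 {a : (InfinitePlace K → ℝ) → G K}
    (hmul : ∀ s t : InfinitePlace K → ℝ, a (s + t) = a s * a t) : a 0 = 1 := by
  have h := hmul 0 0
  rw [add_zero] at h
  have h' : a 0 * 1 = a 0 * a 0 := by rw [mul_one]; exact h
  exact (mul_left_cancel h').symm

/-- An element with trivial component (in `ℂ`) at `w'` is trivial at `w'`. -/
theorem trivAtInf_of_infComp587 {w' : InfinitePlace K} {g : G K} (h : infComp w' g = 1) :
    TrivAtInf w' g := by
  intro i j
  have hij := congrFun (congrFun h i) j
  have hinj : Function.Injective (InfinitePlace.Completion.extensionEmbedding w') :=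
    (InfinitePlace.Completion.extensionEmbedding w').injective
  apply hinj
  rw [show InfinitePlace.Completion.extensionEmbedding w'
      (((g : Matrix (Fin 2) (Fin 2) (Adl K)) i j).1 w') = infComp w' g i j from rfl, hij]
  by_cases hc : i = j
  · subst hc
    simp
  · simp [Matrix.one_apply_ne hc]

/-- The one-parameter elements `a (Pi.single w c)` are positive scalars at `w`. -/
theorem isArchPosScalar_single587 [DecidableEq (InfinitePlace K)]
    {a : (InfinitePlace K → ℝ) → G K}
    (hinf : ∀ (t : InfinitePlace K → ℝ) (w : InfinitePlace K),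
      infComp w (a t) = Matrix.diagonal fun _ => ((Real.exp (t w) : ℝ) : ℂ))
    (hfin : ∀ (t : InfinitePlace K → ℝ) (v : HeightOneSpectrum (𝓞 K)), TrivAtFin v (a t))
    (w : InfinitePlace K) (c : ℝ) : IsArchPosScalar w (a (Pi.single w c)) := by
  refine ⟨⟨fun w' hw' => ?_, fun v => hfin _ v⟩, Real.exp c, Real.exp_pos c, ?_⟩
  · apply trivAtInf_of_infComp587
    rw [hinf, Pi.single_eq_of_ne hw', Real.exp_zero]
    ext i j
    by_cases hc : i = j
    · subst hc
      simp
    · simp [Matrix.diagonal_apply_ne _ hc, Matrix.one_apply_ne hc]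
  · rw [hinf, Pi.single_eq_same]

/-- A function which is invariant under the positive scalars at every infinite place is
invariant under `a t`. -/
theorem inv_a587 {a : (InfinitePlace K → ℝ) → G K}
    (hmul : ∀ s t : InfinitePlace K → ℝ, a (s + t) = a s * a t)
    (hinf : ∀ (t : InfinitePlace K → ℝ) (w : InfinitePlace K),
      infComp w (a t) = Matrix.diagonal fun _ => ((Real.exp (t w) : ℝ) : ℂ))
    (hfin : ∀ (t : InfinitePlace K → ℝ) (v : HeightOneSpectrum (𝓞 K)), TrivAtFin v (a t))
    {χ : G K → ℂ}
    (hχ : ∀ (w : InfinitePlace K) (z : G K), IsArchPosScalar w z → ∀ g : G K, χ (g * z) = χ g)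
    (t : InfinitePlace K → ℝ) (x : G K) : χ (x * a t) = χ x := by
  classical
  have key : ∀ S : Finset (InfinitePlace K), ∀ x : G K,
      χ (x * a (∑ w ∈ S, Pi.single w (t w))) = χ x := by
    intro S
    induction S using Finset.induction_on with
    | empty =>
      intro x
      rw [Finset.sum_empty, a_zero587 hmul, mul_one]
    | insert w S hw ih =>
      intro x
      rw [Finset.sum_insert hw, hmul, ← mul_assoc, ih,
        hχ w _ (isArchPosScalar_single587 hinf hfin w (t w))]
  have h := key Finset.univ x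
  rwa [Finset.univ_sum_single] at h

/-- **LEAF PROJ.11 = TOR-AVG-ORTH**, verbatim. -/
theorem torAvgOrthC587 (K : Type) [Field K] [NumberField K] : TorAvgOrthC K := by
  intro hT1 hTI R hR 𝔑₀ a D hD l o ψ hψ χ hχ
  have hTI' := hTI hT1.adNorm R hR
  have : BorelSpace (G K) := ⟨rfl⟩
  have hFfin : R.μ R.F < ⊤ := hR.frame.finite
  have hDfin : volume D < ⊤ := hD.bdd.measure_lt_top
  have : IsFiniteMeasure (R.μ.restrict R.F) := ⟨by rwa [Measure.restrict_apply_univ]⟩
  have : IsFiniteMeasure ((volume : Measure (InfinitePlace K → ℝ)).restrict D) :=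
    ⟨by rwa [Measure.restrict_apply_univ]⟩
  obtain ⟨Cψ, hCψ⟩ := hψ.bdd
  obtain ⟨Cχ, hCχ⟩ := hχ.cusp.bdd
  -- the constant
  set c : ℂ := (((volume D).toReal : ℝ) : ℂ) with hc
  have hcpos : 0 < (volume D).toReal := ENNReal.toReal_pos hD.pos.ne' hDfin.ne
  have hc0 : c ≠ 0 := by
    rw [hc]
    exact_mod_cast hcpos.ne'
  -- the function `Φ = ψ conj χ`
  set Φ : G K → ℂ := fun x => ψ x * conj (χ x) with hΦ
  have hΦleft : ∀ (γ : GL (Fin 2) K) (x : G K), Φ (T5.ratG γ * x) = Φ x := by
    intro γ x
    simp only [hΦ]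
    rw [hψ.aut.left_inv, hχ.cusp.aut.left_inv]
  have hΦray : ∀ x : G K, Φ (x * R.r) = Φ x := by
    intro x
    simp only [hΦ]
    rw [hψ.aut.ray, hχ.cusp.aut.ray]
  have hΦint : IntegrableOn Φ R.F R.μ :=
    integrableOn_mul_conj193 hFfin hψ.cont hχ.cusp.cont ⟨Cψ, hCψ⟩ ⟨Cχ, hCχ⟩
  -- the integrand on the product
  set f : G K → (InfinitePlace K → ℝ) → ℂ := fun x t => ψ (x * a t) * conj (χ x) with hf
  have hfcont : Continuous (Function.uncurry f) := by
    have h1 : Continuous fun p : G K × (InfinitePlace K → ℝ) => p.1 * a p.2 :=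
      continuous_fst.mul (hD.cont.comp continuous_snd)
    exact (hψ.cont.comp h1).mul (Complex.continuous_conj.comp (hχ.cusp.cont.comp continuous_fst))
  have hfint : Integrable (Function.uncurry f)
      ((R.μ.restrict R.F).prod ((volume : Measure (InfinitePlace K → ℝ)).restrict D)) := by
    refine Integrable.of_bound (C := Cψ * Cχ) hfcont.aestronglyMeasurable ?_
    refine Filter.Eventually.of_forall fun p => ?_
    simp only [Function.uncurry, hf]
    rw [norm_mul, RCLike.norm_conj]
    exact mul_le_mul (hCψ _) (hCχ _) (norm_nonneg _) ((norm_nonneg _).trans (hCψ p.1))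
  -- invariance of `χ`
  have hχa : ∀ (t : InfinitePlace K → ℝ) (x : G K), χ (x * a t) = χ x :=
    fun t x => inv_a587 hD.mul hD.inf hD.fin hχ.arch_scalar t x
  -- the inner integral over `F`
  have hinner : ∀ t : InfinitePlace K → ℝ,
      ∫ x in R.F, f x t ∂(R.μ) = ∫ x in R.F, Φ x ∂(R.μ) := by
    intro t
    rw [← hTI' Φ hΦleft hΦray (a t)]
    refine integral_congr_ae (Filter.Eventually.of_forall fun x => ?_)
    simp only [hf, hΦ]
    rw [hχa t x]
  -- Fubini
  have hswap : ∫ x in R.F, (∫ t in D, f x t) ∂(R.μ) = c * ∫ x in R.F, Φ x ∂(R.μ) := by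
    rw [integral_integral_swap hfint]
    simp only [hinner]
    rw [integral_const, hc]
    simp [Measure.real, Complex.real_smul]
  -- integrability of the averaged term
  have hgint : IntegrableOn (fun x => ∫ t in D, f x t) R.F R.μ := hfint.integral_prod_left
  -- the integrand of the inner product
  have hpt : ∀ x : G K, (ψ x - torAvg a D ψ x) * conj (χ x)
      = Φ x - c⁻¹ * ∫ t in D, f x t := by
    intro x
    simp only [torAvg, hf, hΦ]
    rw [integral_mul_const]
    ring
  unfold T5.innerD
  rw [integral_congr_ae (Filter.Eventually.of_forall hpt),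
    integral_sub hΦint (hgint.const_mul c⁻¹), integral_const_mul, hswap, ← mul_assoc,
    inv_mul_cancel₀ hc0, one_mul, sub_self]

end Fermat.Agent.LT.T7.H587

end
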